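import Fermat.Agent.Crux.G.GK
import Fermat.Agent.SS.G2.Twist

/-!
# S33 / Rig : the wild Kummer step (`GKw`) = Theorem G + Artin–Schreier

`Crux.G.theoremG` holds for an arbitrary finite extension `L/E` (char. 0) with (H0), (H1), (H2).
Here `L = F(w)`, `w ^ p = W`, `p` = residue characteristic, `ζ ∈ A` a primitive `p`-th root of `1`,
`λ = ζ - 1`, `W = 1 + λ ^ p ξ`, `ξ ∈ π O_F`.  Put `z = (w - 1) / λ`.  Then
`z ^ p + ∑_{0 < i < p} a_i z ^ i = ξ`, `a_1 = u` a unit (`p = u λ ^ (p-1)`), `π ∣ a_i` for `i ≥ 2`.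
So `z` is a root of a monic polynomial `G` over `O_F` with `G'(z) ≡ u` a unit:

* part 1 (`mono_*`): `L = F(z)`, `G = minpoly`, coefficients in `O_F`, `G'(z)⁻¹ ∈ O_L`
  ⇒ `O_L = ⊕ O_F z ^ j` (Euler's dual basis) and (H1) goes up from `F` to `L`;
* part 2 (`wild_*`): the Artin–Schreier element `z`, the idempotent `1 + u⁻¹ z ^ (p-1)` mod `π`;
* `GKw`: contradiction with Theorem G.
-/

set_option autoImplicit false
set_option linter.unusedSectionVars false
set_option linter.style.haveILetI false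
set_option linter.unusedVariables false

open Polynomial

namespace Fermat.Agent.S33

open Fermat.Agent.Crux.G Fermat.Agent.SS.G2

section IntegralRoot

variable {A : Type*} [CommRing A] [IsDomain A] {π : A}
variable {L : Type*} [Field L] [Algebra A[X] L]

/-- a common denominator prime to `π`. -/
theorem exists_common_den (hπ : Prime π) (n : ℕ) (c : ℕ → L) (hc : ∀ i, IsOL π (c i)) :
    ∃ s : A[X], ¬ C π ∣ s ∧ ∀ i < n, IsIntegral A[X] (s • c i) := by
  induction n with
  | zero => exact ⟨1, Sat.not_dvd_one hπ, fun i hi => absurd hi (Nat.not_lt_zero i)⟩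
  | succ n ih =>
    obtain ⟨s, hs, h⟩ := ih
    obtain ⟨t, ht, h'⟩ := hc n
    refine ⟨s * t, Sat.not_dvd_mul hπ hs ht, fun i hi => ?_⟩
    rcases Nat.lt_succ_iff_lt_or_eq.1 hi with hi' | rfl
    · rw [mul_comm, mul_smul]
      exact (h i hi').smul t
    · rw [mul_smul]
      exact h'.smul s

/-- a root of a monic polynomial whose coefficients are integral is integral. -/
theorem isIntegral_of_monic_root {R B : Type*} [CommRing R] [CommRing B] [Algebra R B]
    {Q : B[X]} (hQ : Q.Monic) (hc : ∀ i, IsIntegral R (Q.coeff i)) {y : B} (hy : Q.eval y = 0) :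
    IsIntegral R y := by
  have hl : Q ∈ Polynomial.lifts (algebraMap (integralClosure R B) B) := by
    rw [Polynomial.lifts_iff_coeff_lifts]
    intro i
    exact ⟨⟨Q.coeff i, hc i⟩, rfl⟩
  obtain ⟨Q', hQ', -, hm⟩ := Polynomial.lifts_and_natDegree_eq_and_monic hl hQ
  have h1 : IsIntegral (integralClosure R B) y := by
    refine ⟨Q', hm, ?_⟩
    rw [← Polynomial.eval_map, hQ', hy]
  exact isIntegral_trans y h1

/-- `O_L` is integrally closed in `L`: a root of a monic polynomial with coefficients in `O_L`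
lies in `O_L`. -/
theorem isOL_of_monic_root (hπ : Prime π) {P : L[X]} (hP : P.Monic)
    (hc : ∀ i, IsOL π (P.coeff i)) {z : L} (hz : P.eval z = 0) : IsOL π z := by
  obtain ⟨s, hs, h⟩ := exists_common_den hπ P.natDegree (fun i => P.coeff i) hc
  refine ⟨s, hs, ?_⟩
  have hQ : (P.scaleRoots (algebraMap A[X] L s)).Monic := (monic_scaleRoots_iff _).2 hP
  refine isIntegral_of_monic_root hQ (fun i => ?_) (y := s • z) ?_
  · rw [coeff_scaleRoots]
    rcases lt_trichotomy i P.natDegree with hi | hi | hi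
    · obtain ⟨k, hk⟩ : ∃ k, P.natDegree - i = k + 1 := ⟨P.natDegree - i - 1, by omega⟩
      rw [hk, pow_succ, mul_comm (_ ^ k), ← mul_assoc, mul_comm (P.coeff i), ← Algebra.smul_def]
      exact (h i hi).mul (isIntegral_algebraMap.pow k)
    · rw [hi, Nat.sub_self, pow_zero, mul_one, hP.coeff_natDegree]
      exact isIntegral_one
    · rw [coeff_eq_zero_of_natDegree_lt hi, zero_mul]
      exact isIntegral_zero
  · rw [Algebra.smul_def]
    have := scaleRoots_eval₂_eq_zero (RingHom.id L) (p := P) (r := z)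
      (s := algebraMap A[X] L s) (by simpa [eval₂_id] using hz)
    simpa [eval₂_id] using this

end IntegralRoot

section Mono

variable {A : Type*} [CommRing A] [IsDomain A] [IsDiscreteValuationRing A] {π : A}
variable {E F L : Type*} [Field E] [Field F] [Field L]
  [Algebra A[X] E] [IsFractionRing A[X] E] [CharZero E]
  [Algebra A[X] F] [Algebra E F] [IsScalarTower A[X] E F] [FiniteDimensional E F]
  [Algebra A[X] L] [Algebra E L] [IsScalarTower A[X] E L] [FiniteDimensional E L]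
  [Algebra F L] [IsScalarTower E F L] [IsScalarTower A[X] F L]

/-- the coefficients of `minpoly / (X - z)` lie in `O_L`. -/
theorem mono_isOL_coeff_minpolyDiv (hπ : Prime π) {z : L} (hz : IsOL π z)
    (hcoef : ∀ i, IsOL π ((minpoly F z).coeff i)) (i : ℕ) :
    IsOL π ((minpolyDiv F z).coeff i) := by
  have key : ∀ k i : ℕ, (minpolyDiv F z).natDegree < i + k → IsOL π ((minpolyDiv F z).coeff i) := by
    intro k
    induction k with
    | zero =>
      intro i hi
      rw [coeff_eq_zero_of_natDegree_lt (by simpa using hi)]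
      exact isOL_zero hπ
    | succ k ih =>
      intro i hi
      rw [coeff_minpolyDiv]
      exact ((hcoef (i + 1)).algebraMap_FL).add hπ ((ih (i + 1) (by omega)).mul hπ hz)
  exact key ((minpolyDiv F z).natDegree + 1) i (by omega)

variable (E) in
include E in
/-- extraction of the `k`-th coordinate by a trace against an element of `O_L` (Euler). -/
theorem mono_extract (hπ : Prime π) (n : ℕ) (z : L) (hdeg : Module.finrank F L = n)
    (hli : LinearIndependent F (fun j : Fin n => z ^ (j : ℕ))) (hz : IsOL π z)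
    (hcoef : ∀ i, IsOL π ((minpoly F z).coeff i))
    (hder : IsOL π (aeval z (derivative (minpoly F z)))⁻¹) (k : Fin n) :
    ∃ t : L, IsOL π t ∧
      ∀ c : Fin n → F, Algebra.trace F L ((∑ j, c j • z ^ (j : ℕ)) * t) = c k := by
  classical
  have hfd : FiniteDimensional F L := FiniteDimensional.right E F L
  have hcF : CharZero F := charZero_of_injective_algebraMap (algebraMap E F).injective
  have hcard : Fintype.card (Fin n) = Module.finrank F L := by simp [hdeg]
  have : Nonempty (Fin n) := ⟨k⟩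
  let b := basisOfLinearIndependentOfCardEqFinrank hli hcard
  have hb : ∀ j, b j = z ^ (j : ℕ) := fun j => by simp [b]
  let pb : PowerBasis F L := { gen := z, dim := n, basis := b, basis_eq_pow := hb }
  have h1 := (Module.Basis.traceDual_eq_iff (b := pb.basis)).1
    (funext (Module.Basis.traceDual_powerBasis_eq pb))
  refine ⟨(minpolyDiv F z).coeff k / aeval z (derivative (minpoly F z)), ?_, fun c => ?_⟩
  · rw [div_eq_mul_inv]
    exact (mono_isOL_coeff_minpolyDiv hπ hz hcoef k).mul hπ hder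
  · rw [Finset.sum_mul, map_sum]
    have h2 : ∀ j : Fin n, Algebra.trace F L (c j • z ^ (j : ℕ) *
        ((minpolyDiv F z).coeff k / aeval z (derivative (minpoly F z)))) =
        if j = k then c j else 0 := by
      intro j
      have h3 := h1 k j
      rw [Algebra.traceForm_apply] at h3
      rw [smul_mul_assoc, map_smul, mul_comm, ← hb j]
      change c j • Algebra.trace F L (_ * pb.basis j) = _
      erw [h3]
      split_ifs <;> simp
    simp_rw [h2]
    simp

variable (E) in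
include E in
/-- `O_L = ⊕ O_F z^j`. -/
theorem mono_coeff (hπ : Prime π) (n : ℕ) (z : L) (hdeg : Module.finrank F L = n)
    (hli : LinearIndependent F (fun j : Fin n => z ^ (j : ℕ))) (hz : IsOL π z)
    (hcoef : ∀ i, IsOL π ((minpoly F z).coeff i))
    (hder : IsOL π (aeval z (derivative (minpoly F z)))⁻¹) (y : L) (hy : IsOL π y) :
    ∃ c : Fin n → F, (∀ j, IsOL π (c j)) ∧ y = ∑ j, c j • z ^ (j : ℕ) := by
  classical
  have hfd : FiniteDimensional F L := FiniteDimensional.right E F L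
  have hn0 : n ≠ 0 := by rw [← hdeg]; exact Module.finrank_pos.ne'
  have hcard : Fintype.card (Fin n) = Module.finrank F L := by simp [hdeg]
  have : Nonempty (Fin n) := ⟨⟨0, by omega⟩⟩
  let b := basisOfLinearIndependentOfCardEqFinrank hli hcard
  have hb : ∀ j, b j = z ^ (j : ℕ) := fun j => by simp [b]
  have hy' : y = ∑ j, b.repr y j • z ^ (j : ℕ) := by
    conv_lhs => rw [← b.sum_repr y]
    simp_rw [hb]
  refine ⟨fun j => b.repr y j, fun k => ?_, hy'⟩
  obtain ⟨t, ht, htr⟩ := mono_extract E hπ n z hdeg hli hz hcoef hder k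
  have h1 := htr (fun j => b.repr y j)
  rw [← hy'] at h1
  show IsOL π (b.repr y k)
  rw [← h1]
  exact (hy.mul hπ ht).trace_FL

variable (E) in
include E in
/-- coordinates of an element of `π O_L` lie in `π O_F`. -/
theorem mono_coeff_pi (hπ : Prime π) (n : ℕ) (z : L) (hdeg : Module.finrank F L = n)
    (hli : LinearIndependent F (fun j : Fin n => z ^ (j : ℕ))) (hz : IsOL π z)
    (hcoef : ∀ i, IsOL π ((minpoly F z).coeff i))
    (hder : IsOL π (aeval z (derivative (minpoly F z)))⁻¹) (a : Fin n → F)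
    (hy : IsPiOL π (∑ j, a j • z ^ (j : ℕ))) (k : Fin n) : IsPiOL π (a k) := by
  obtain ⟨y, hy', hyz⟩ := hy
  obtain ⟨c, hc, rfl⟩ := mono_coeff E hπ n z hdeg hli hz hcoef hder y hy'
  have h1 : ∑ j, (a j - (C π : A[X]) • c j) • z ^ (j : ℕ) = 0 := by
    simp_rw [sub_smul, Finset.sum_sub_distrib, hyz, Finset.smul_sum, smul_assoc, sub_self]
  have h2 := Fintype.linearIndependent_iff.1 hli _ h1 k
  exact ⟨c k, hc k, sub_eq_zero.1 h2⟩

/-- (H1) goes up. -/
theorem mono_tracePerfect (hπ : Prime π) (n : ℕ) (z : L) (hdeg : Module.finrank F L = n)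
    (hli : LinearIndependent F (fun j : Fin n => z ^ (j : ℕ))) (hz : IsOL π z)
    (hcoef : ∀ i, IsOL π ((minpoly F z).coeff i))
    (hder : IsOL π (aeval z (derivative (minpoly F z)))⁻¹) (H1 : TracePerfect π E F) :
    TracePerfect π E L := by
  intro y hy htr
  have hfd : FiniteDimensional F L := FiniteDimensional.right E F L
  obtain ⟨c, hc, rfl⟩ := mono_coeff E hπ n z hdeg hli hz hcoef hder y hy
  have key : ∀ k, IsPiOL π (c k) := by
    intro k
    apply H1 (c k) (hc k)
    intro v hv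
    obtain ⟨t, ht, hext⟩ := mono_extract E hπ n z hdeg hli hz hcoef hder k
    have h1 := htr (t * algebraMap F L v) (ht.mul hπ hv.algebraMap_FL)
    have h2 : Algebra.trace F L ((∑ j, c j • z ^ (j : ℕ)) * (t * algebraMap F L v)) = c k * v := by
      rw [← mul_assoc, mul_comm _ (algebraMap F L v), ← Algebra.smul_def, map_smul, hext,
        smul_eq_mul, mul_comm]
    rw [← Algebra.trace_trace (S := F), h2] at h1
    exact h1
  apply IsPiOL.sum hπ
  intro j _
  rw [Algebra.smul_def]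
  exact (key j).algebraMap_FL.mul_right hπ (hz.pow hπ _)

end Mono

section Cyclo

variable {A : Type*} [CommRing A] [IsDomain A]

/-- `p = u λ ^ (p-1)`, `λ = ζ - 1`, `u` a unit. -/
theorem exists_unit_natCast_eq {p : ℕ} (hp : p.Prime) {ζ : A} (hζ : IsPrimitiveRoot ζ p) :
    ∃ u : Aˣ, (p : A) = u * (ζ - 1) ^ (p - 1) := by
  haveI : Fact p.Prime := ⟨hp⟩
  haveI : NeZero p := ⟨hp.ne_zero⟩
  have h : Associated ((ζ - 1) ^ (p - 1)) (p : A) := by
    rw [← eval_one_cyclotomic_prime (R := A) (p := p),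
      cyclotomic_eq_prod_X_sub_primitiveRoots hζ, eval_prod]
    simp only [eval_sub, eval_X, eval_C]
    rw [← Nat.totient_prime hp, ← hζ.card_primitiveRoots, ← Finset.prod_const]
    refine Associated.prod _ _ _ fun η hη ↦ ?_
    obtain ⟨i, -, hi, rfl⟩ := hζ.isPrimitiveRoot_iff.mp (isPrimitiveRoot_of_mem_primitiveRoots hη)
    simpa using (hζ.associated_sub_one_pow_sub_one_of_coprime hi).neg_right
  obtain ⟨u, hu⟩ := h
  exact ⟨u, by rw [← hu, mul_comm]⟩

/-- `π ∣ ζ - 1` if `π ∣ p`. -/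
theorem dvd_sub_one_of_dvd_natCast {π : A} (hπ : Prime π) {p : ℕ} (hp : p.Prime)
    (hpπ : π ∣ (p : A)) {ζ : A} (hζ : IsPrimitiveRoot ζ p) : π ∣ ζ - 1 := by
  obtain ⟨u, hu⟩ := exists_unit_natCast_eq hp hζ
  rw [hu] at hpπ
  rcases hπ.dvd_or_dvd hpπ with h | h
  · exact absurd (isUnit_of_dvd_unit h u.isUnit) hπ.not_isUnit
  · exact hπ.dvd_of_dvd_pow h

/-- the coefficients of the Artin–Schreier equation. -/
def asCoeff (p : ℕ) (u l : A) (i : ℕ) : A := ((p.choose i / p : ℕ) : A) * u * l ^ (i - 1)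

theorem asCoeff_one {p : ℕ} (hp : p.Prime) (u l : A) : asCoeff p u l 1 = u := by
  simp [asCoeff, Nat.div_self hp.pos]

theorem dvd_asCoeff {π : A} {p : ℕ} {u l : A} (hl : π ∣ l) {i : ℕ} (hi : 2 ≤ i) :
    π ∣ asCoeff p u l i :=
  Dvd.dvd.mul_left (dvd_pow hl (by omega)) _

theorem choose_mul_pow_eq {p : ℕ} (hp : p.Prime) {u l : A} (hu : (p : A) = u * l ^ (p - 1))
    {i : ℕ} (hi0 : 0 < i) (hip : i < p) : (p.choose i : A) * l ^ i = l ^ p * asCoeff p u l i := by
  obtain ⟨b, hb⟩ := hp.dvd_choose_self hi0.ne' hip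
  have h1 : p.choose i / p = b := by rw [hb, Nat.mul_div_cancel_left _ hp.pos]
  rw [asCoeff, h1, hb, Nat.cast_mul, hu]
  obtain ⟨k, rfl⟩ : ∃ k, i = k + 1 := ⟨i - 1, by omega⟩
  obtain ⟨m, rfl⟩ : ∃ m, p = m + 1 := ⟨p - 1, by have := hp.pos; omega⟩
  simp only [Nat.add_sub_cancel]
  ring

/-- `(1 + l z) ^ p = 1 + l ^ p (z ^ p + ∑_{0 < i < p} a_i z ^ i)`. -/
theorem one_add_mul_pow_eq {B : Type*} [CommRing B] (φ : A →+* B) {p : ℕ} (hp : p.Prime) {u l : A}
    (hu : (p : A) = u * l ^ (p - 1)) (z : B) :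
    (1 + φ l * z) ^ p =
      1 + φ l ^ p * (z ^ p + ∑ i ∈ Finset.Ico 1 p, φ (asCoeff p u l i) * z ^ i) := by
  rw [add_comm 1, add_pow, Finset.sum_range_succ, Finset.range_eq_Ico,
    Finset.sum_eq_sum_Ico_succ_bot hp.pos]
  simp only [pow_zero, one_pow, mul_one, Nat.choose_zero_right, Nat.cast_one, Nat.choose_self,
    zero_add]
  have h : ∑ i ∈ Finset.Ico 1 p, (φ l * z) ^ i * (p.choose i : B) =
      φ l ^ p * ∑ i ∈ Finset.Ico 1 p, φ (asCoeff p u l i) * z ^ i := by
    rw [Finset.mul_sum]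
    refine Finset.sum_congr rfl fun i hi => ?_
    obtain ⟨h1, h2⟩ := Finset.mem_Ico.1 hi
    have := congrArg φ (choose_mul_pow_eq hp hu (i := i) (by omega) h2)
    simp only [map_mul, map_pow, map_natCast] at this
    rw [mul_pow, ← mul_assoc, ← this]
    ring
  rw [h, mul_pow]
  ring

end Cyclo

section Wild

variable {A : Type*} [CommRing A] [IsDomain A] [IsDiscreteValuationRing A] {π : A}
variable {E F L : Type*} [Field E] [Field F] [Field L]
  [Algebra A[X] E] [IsFractionRing A[X] E] [CharZero E]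
  [Algebra A[X] F] [Algebra E F] [IsScalarTower A[X] E F] [FiniteDimensional E F]
  [Algebra A[X] L] [Algebra E L] [IsScalarTower A[X] E L] [FiniteDimensional E L]
  [Algebra F L] [IsScalarTower E F L] [IsScalarTower A[X] F L]

theorem isPiOL_C_mul (hπ : Prime π) {a : A} (ha : π ∣ a) {y : L} (hy : IsOL π y) :
    IsPiOL π (algebraMap A[X] L (C a) * y) := by
  obtain ⟨b, rfl⟩ := ha
  refine ⟨algebraMap A[X] L (C b) * y, (isOL_algebraMap hπ _).mul hπ hy, ?_⟩
  rw [Algebra.smul_def, C_mul, map_mul, mul_assoc]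

variable (E) in
include E in
theorem algebraMap_C_ne_zero {l : A} (hl0 : l ≠ 0) : algebraMap A[X] L (C l) ≠ 0 := by
  rw [IsScalarTower.algebraMap_apply A[X] E L]
  intro h
  have h1 := (map_eq_zero (algebraMap E L)).1 h
  have h2 := (IsFractionRing.injective A[X] E) (h1.trans (map_zero _).symm)
  exact hl0 (C_eq_zero.1 h2)

/-- the Artin–Schreier polynomial. -/
noncomputable def asPoly (p : ℕ) (u l : A) (ξ : F) : F[X] :=
  X ^ p + (∑ i ∈ Finset.Ico 1 p, C (algebraMap A[X] F (C (asCoeff p u l i))) * X ^ i - C ξ)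

theorem asPoly_degree_lt {p : ℕ} (hp : p.Prime) (u l : A) (ξ : F) :
    (∑ i ∈ Finset.Ico 1 p, C (algebraMap A[X] F (C (asCoeff p u l i))) * X ^ i - C ξ).degree
      < (p : WithBot ℕ) := by
  rw [← Polynomial.mem_degreeLT]
  refine Submodule.sub_mem _ (Submodule.sum_mem _ fun i hi => ?_) ?_
  · rw [Polynomial.mem_degreeLT]
    exact (degree_C_mul_X_pow_le i _).trans_lt (by exact_mod_cast (Finset.mem_Ico.1 hi).2)
  · rw [Polynomial.mem_degreeLT]
    exact degree_C_le.trans_lt (by exact_mod_cast hp.pos)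

theorem asPoly_monic {p : ℕ} (hp : p.Prime) (u l : A) (ξ : F) : (asPoly p u l ξ).Monic :=
  monic_X_pow_add (asPoly_degree_lt hp u l ξ)

theorem asPoly_natDegree {p : ℕ} (hp : p.Prime) (u l : A) (ξ : F) :
    (asPoly p u l ξ).natDegree = p := by
  have h := asPoly_degree_lt (F := F) hp u l ξ
  rw [← degree_X_pow (R := F) p] at h
  rw [asPoly, natDegree_add_eq_left_of_degree_lt h, natDegree_X_pow]

theorem asPoly_isOL_coeff (hπ : Prime π) (p : ℕ) (u l : A) {ξ : F} (hξ : IsOL π ξ) (i : ℕ) :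
    IsOL π ((asPoly p u l ξ).coeff i) := by
  rw [asPoly, coeff_add, coeff_sub, finsetSum_coeff, coeff_X_pow, coeff_C]
  refine IsOL.add hπ ?_ (IsOL.sub hπ (IsOL.sum hπ _ _ fun j _ => ?_) ?_)
  · split_ifs
    · exact isOL_one hπ
    · exact isOL_zero hπ
  · rw [coeff_C_mul, coeff_X_pow]
    split_ifs
    · rw [mul_one]; exact isOL_algebraMap hπ _
    · rw [mul_zero]; exact isOL_zero hπ
  · split_ifs
    · exact hξ
    · exact isOL_zero hπ

theorem asPoly_aeval (p : ℕ) (u l : A) (ξ : F) (z : L) :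
    aeval z (asPoly p u l ξ) =
      z ^ p + ∑ i ∈ Finset.Ico 1 p, algebraMap A[X] L (C (asCoeff p u l i)) * z ^ i
        - algebraMap F L ξ := by
  simp only [asPoly, map_add, map_sub, map_sum, map_mul, map_pow, aeval_X, aeval_C,
    ← IsScalarTower.algebraMap_apply]
  ring

theorem asPoly_aeval_derivative (p : ℕ) (u l : A) (ξ : F) (z : L) :
    aeval z (derivative (asPoly p u l ξ)) =
      (p : L) * z ^ (p - 1) +
        ∑ i ∈ Finset.Ico 1 p, algebraMap A[X] L (C (asCoeff p u l i)) * ((i : L) * z ^ (i - 1)) := by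
  simp only [asPoly, derivative_sub, derivative_C_mul,
    derivative_X_pow, derivative_C, sub_zero, map_add, map_sum, map_mul, map_pow, aeval_X, aeval_C,
    map_natCast, ← IsScalarTower.algebraMap_apply]

variable (E) in
include E in
/-- the Artin–Schreier equation of `z = (w - 1) / l`. -/
theorem wild_rel {p : ℕ} (hp : p.Prime) {u l : A} (hu : (p : A) = u * l ^ (p - 1)) (hl0 : l ≠ 0)
    {w z : L} {ξ : F} (hwz : w = 1 + algebraMap A[X] L (C l) * z)
    (hw : w ^ p = algebraMap F L (1 + algebraMap A[X] F (C l) ^ p * ξ)) :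
    z ^ p + ∑ i ∈ Finset.Ico 1 p, algebraMap A[X] L (C (asCoeff p u l i)) * z ^ i
      = algebraMap F L ξ := by
  have h1 := one_add_mul_pow_eq ((algebraMap A[X] L).comp (C : A →+* A[X])) hp hu z
  simp only [RingHom.comp_apply] at h1
  rw [← hwz, hw, map_add, map_one, map_mul, map_pow, ← IsScalarTower.algebraMap_apply] at h1
  have h2 := add_left_cancel h1
  exact (mul_left_cancel₀ (pow_ne_zero p (algebraMap_C_ne_zero E hl0)) h2).symm

variable (E) in
include E in
/-- `z ∈ O_L`. -/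
theorem wild_isOL (hπ : Prime π) {p : ℕ} (hp : p.Prime) {u l : A}
    (hu : (p : A) = u * l ^ (p - 1)) (hl0 : l ≠ 0)
    {w z : L} {ξ : F} (hξ : IsOL π ξ) (hwz : w = 1 + algebraMap A[X] L (C l) * z)
    (hw : w ^ p = algebraMap F L (1 + algebraMap A[X] F (C l) ^ p * ξ)) : IsOL π z := by
  have hrel := wild_rel E hp hu hl0 hwz hw
  refine isOL_of_monic_root hπ ((asPoly_monic hp u l ξ).map (algebraMap F L)) (fun i => ?_)
    (z := z) ?_
  · rw [coeff_map]
    exact (asPoly_isOL_coeff hπ p u l hξ i).algebraMap_FL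
  · rw [eval_map_algebraMap, asPoly_aeval, hrel, sub_self]

variable (E) in
include E in
/-- `z ^ p + u z ∈ π O_L`. -/
theorem wild_pow_add (hπ : Prime π) {p : ℕ} (hp : p.Prime) {u l : A}
    (hu : (p : A) = u * l ^ (p - 1)) (hl0 : l ≠ 0) (hl : π ∣ l)
    {w z : L} {ξ : F} (hξ : IsPiOL π ξ) (hwz : w = 1 + algebraMap A[X] L (C l) * z)
    (hw : w ^ p = algebraMap F L (1 + algebraMap A[X] F (C l) ^ p * ξ)) :
    IsPiOL π (z ^ p + algebraMap A[X] L (C u) * z) := by
  have hz := wild_isOL E hπ hp hu hl0 hξ.isOL hwz hw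
  have hrel := wild_rel E hp hu hl0 hwz hw
  rw [Finset.sum_eq_sum_Ico_succ_bot hp.one_lt, asCoeff_one hp, pow_one] at hrel
  have h1 : z ^ p + algebraMap A[X] L (C u) * z = algebraMap F L ξ -
      ∑ i ∈ Finset.Ico (1 + 1) p, algebraMap A[X] L (C (asCoeff p u l i)) * z ^ i := by
    linear_combination hrel
  rw [h1]
  exact hξ.algebraMap_FL.sub hπ (IsPiOL.sum hπ _ _ fun i hi =>
    isPiOL_C_mul hπ (dvd_asCoeff hl (Finset.mem_Ico.1 hi).1) (hz.pow hπ i))

variable (E) in
include E in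
/-- `L = F(z)`. -/
theorem wild_adjoin {p : ℕ} {l : A} {w z : L} (hwz : w = 1 + algebraMap A[X] L (C l) * z)
    (hdeg : Module.finrank F L = p)
    (hli : LinearIndependent F (fun j : Fin p => w ^ (j : ℕ))) :
    IntermediateField.adjoin F {z} = ⊤ := by
  have hfd : FiniteDimensional F L := FiniteDimensional.right E F L
  have hspan : ⊤ ≤ Submodule.span F (Set.range fun j : Fin p => w ^ (j : ℕ)) :=
    (hli.span_eq_top_of_card_eq_finrank' (by simp [hdeg])).ge
  have hw : w ∈ IntermediateField.adjoin F {z} := by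
    rw [hwz, IsScalarTower.algebraMap_apply A[X] F L]
    exact add_mem (one_mem _) (mul_mem (IntermediateField.algebraMap_mem _ _)
      (IntermediateField.mem_adjoin_simple_self F z))
  have h1 : Submodule.span F (Set.range fun j : Fin p => w ^ (j : ℕ)) ≤
      (IntermediateField.adjoin F {z}).toSubalgebra.toSubmodule :=
    Submodule.span_le.2 (by rintro _ ⟨j, rfl⟩; exact pow_mem hw _)
  rw [eq_top_iff]
  intro y _
  exact h1 (hspan trivial)

variable (E) in
include E in
theorem wild_li {p : ℕ} (hp0 : p ≠ 0) {l : A} {w z : L}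
    (hwz : w = 1 + algebraMap A[X] L (C l) * z) (hdeg : Module.finrank F L = p)
    (hli : LinearIndependent F (fun j : Fin p => w ^ (j : ℕ))) :
    LinearIndependent F (fun j : Fin p => z ^ (j : ℕ)) :=
  kummer_linearIndependent_of_adjoin p z hdeg hp0 (wild_adjoin E hwz hdeg hli)

variable (E) in
include E in
theorem wild_minpoly {p : ℕ} (hp : p.Prime) {u l : A}
    (hu : (p : A) = u * l ^ (p - 1)) (hl0 : l ≠ 0)
    {w z : L} {ξ : F} (hwz : w = 1 + algebraMap A[X] L (C l) * z)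
    (hw : w ^ p = algebraMap F L (1 + algebraMap A[X] F (C l) ^ p * ξ))
    (hdeg : Module.finrank F L = p)
    (hli : LinearIndependent F (fun j : Fin p => w ^ (j : ℕ))) :
    minpoly F z = asPoly p u l ξ := by
  have hfd : FiniteDimensional F L := FiniteDimensional.right E F L
  have hint : IsIntegral F z := IsIntegral.of_finite F z
  have hroot : aeval z (asPoly p u l ξ) = 0 := by
    rw [asPoly_aeval, wild_rel E hp hu hl0 hwz hw, sub_self]
  have hnd : (minpoly F z).natDegree = p := by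
    rw [← IntermediateField.adjoin.finrank hint, wild_adjoin E hwz hdeg hli,
      IntermediateField.finrank_top', hdeg]
  exact (eq_of_monic_of_dvd_of_natDegree_le (minpoly.monic hint) (asPoly_monic hp u l ξ)
    (minpoly.dvd F z hroot) (by rw [asPoly_natDegree hp, hnd])).symm

variable (E) in
include E in
/-- `G'(z)` is a unit of `O_L`. -/
theorem wild_isOL_der_inv (hπ : Prime π) {p : ℕ} (hp : p.Prime) (hpπ : π ∣ (p : A)) {u : Aˣ} {l : A}
    (hu : (p : A) = u * l ^ (p - 1)) (hl0 : l ≠ 0) (hl : π ∣ l)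
    {w z : L} {ξ : F} (hξ : IsOL π ξ) (hwz : w = 1 + algebraMap A[X] L (C l) * z)
    (hw : w ^ p = algebraMap F L (1 + algebraMap A[X] F (C l) ^ p * ξ))
    (hdeg : Module.finrank F L = p)
    (hli : LinearIndependent F (fun j : Fin p => w ^ (j : ℕ))) :
    IsOL π (aeval z (derivative (minpoly F z)))⁻¹ := by
  have hz := wild_isOL E hπ hp hu hl0 hξ hwz hw
  rw [wild_minpoly E hp hu hl0 hwz hw hdeg hli, asPoly_aeval_derivative,
    Finset.sum_eq_sum_Ico_succ_bot hp.one_lt, asCoeff_one hp]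
  simp only [Nat.cast_one, Nat.sub_self, pow_zero, mul_one]
  have huu : algebraMap A[X] L (C ((u⁻¹ : Aˣ) : A)) * algebraMap A[X] L (C (u : A)) = 1 := by
    rw [← map_mul, ← C_mul, Units.inv_mul, C_1, map_one]
  have hu0 : algebraMap A[X] L (C ((u⁻¹ : Aˣ) : A)) ≠ 0 := left_ne_zero_of_mul_eq_one huu
  set T : L := (p : L) * z ^ (p - 1) + ∑ i ∈ Finset.Ico (1 + 1) p,
    algebraMap A[X] L (C (asCoeff p (u : A) l i)) * ((i : L) * z ^ (i - 1)) with hT
  have hTpi : IsPiOL π T := by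
    refine IsPiOL.add hπ ?_ (IsPiOL.sum hπ _ _ fun i hi => ?_)
    · have h1 : (p : L) = algebraMap A[X] L (C (p : A)) := by simp
      rw [h1]
      exact isPiOL_C_mul hπ hpπ (hz.pow hπ _)
    · have h1 : (i : L) = algebraMap A[X] L (C (i : A)) := by simp
      rw [h1]
      exact isPiOL_C_mul hπ (dvd_asCoeff hl (Finset.mem_Ico.1 hi).1)
        ((isOL_algebraMap hπ _).mul hπ (hz.pow hπ _))
  have hD : (p : L) * z ^ (p - 1) + (algebraMap A[X] L (C (u : A)) + ∑ i ∈ Finset.Ico (1 + 1) p,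
      algebraMap A[X] L (C (asCoeff p (u : A) l i)) * ((i : L) * z ^ (i - 1))) =
      algebraMap A[X] L (C (u : A)) + T := by
    rw [hT]; ring
  rw [hD]
  have h1 : IsPiOL π (algebraMap A[X] L (C ((u⁻¹ : Aˣ) : A)) *
      (algebraMap A[X] L (C (u : A)) + T) - 1) := by
    rw [mul_add, huu, add_sub_cancel_left]
    exact hTpi.mul_left hπ (isOL_algebraMap hπ _)
  have h2 := IsOL.inv_of_sub_one hπ h1
  have h3 : (algebraMap A[X] L (C (u : A)) + T)⁻¹ = algebraMap A[X] L (C ((u⁻¹ : Aˣ) : A)) *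
      (algebraMap A[X] L (C ((u⁻¹ : Aˣ) : A)) * (algebraMap A[X] L (C (u : A)) + T))⁻¹ := by
    rw [mul_inv, ← mul_assoc, mul_inv_cancel₀ hu0, one_mul]
  rw [h3]
  exact (isOL_algebraMap hπ _).mul hπ h2

/-- (H1) goes up along the wild (Artin–Schreier) step. -/
theorem wild_tracePerfect (hπ : Prime π) {p : ℕ} (hp : p.Prime) (hpπ : π ∣ (p : A)) {u : Aˣ} {l : A}
    (hu : (p : A) = u * l ^ (p - 1)) (hl0 : l ≠ 0) (hl : π ∣ l)
    {w z : L} {ξ : F} (hξ : IsOL π ξ) (hwz : w = 1 + algebraMap A[X] L (C l) * z)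
    (hw : w ^ p = algebraMap F L (1 + algebraMap A[X] F (C l) ^ p * ξ))
    (hdeg : Module.finrank F L = p)
    (hli : LinearIndependent F (fun j : Fin p => w ^ (j : ℕ))) (H1 : TracePerfect π E F) :
    TracePerfect π E L :=
  mono_tracePerfect hπ p z hdeg (wild_li E hp.ne_zero hwz hdeg hli)
    (wild_isOL E hπ hp hu hl0 hξ hwz hw)
    (fun i => by
      rw [wild_minpoly E hp hu hl0 hwz hw hdeg hli]
      exact asPoly_isOL_coeff hπ p _ l hξ i)
    (wild_isOL_der_inv E hπ hp hpπ hu hl0 hl hξ hwz hw hdeg hli) H1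

variable (E) in
include E in
/-- the nontrivial idempotent `1 + u⁻¹ z ^ (p - 1)` modulo `π`. -/
theorem wild_idempotent (hπ : Irreducible π) {p : ℕ} (hp : p.Prime) (hpπ : π ∣ (p : A)) {u : Aˣ}
    {l : A} (hu : (p : A) = u * l ^ (p - 1)) (hl0 : l ≠ 0) (hl : π ∣ l)
    {w z : L} {ξ : F} (hξ : IsPiOL π ξ) (hwz : w = 1 + algebraMap A[X] L (C l) * z)
    (hw : w ^ p = algebraMap F L (1 + algebraMap A[X] F (C l) ^ p * ξ))
    (hdeg : Module.finrank F L = p)
    (hli : LinearIndependent F (fun j : Fin p => w ^ (j : ℕ))) :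
    IsOL π (1 + algebraMap A[X] L (C ((u⁻¹ : Aˣ) : A)) * z ^ (p - 1)) ∧
    IsPiOL π ((1 + algebraMap A[X] L (C ((u⁻¹ : Aˣ) : A)) * z ^ (p - 1)) ^ 2
      - (1 + algebraMap A[X] L (C ((u⁻¹ : Aˣ) : A)) * z ^ (p - 1))) ∧
    ¬ IsPiOL π (1 + algebraMap A[X] L (C ((u⁻¹ : Aˣ) : A)) * z ^ (p - 1)) ∧
    ¬ IsPiOL π (1 + algebraMap A[X] L (C ((u⁻¹ : Aˣ) : A)) * z ^ (p - 1) - 1) := by
  classical
  have hπ' := hπ.prime
  have hp2 := hp.two_le
  have hz := wild_isOL E hπ' hp hu hl0 hξ.isOL hwz hw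
  have hzli := wild_li E hp.ne_zero hwz hdeg hli
  have hcoef : ∀ i, IsOL π ((minpoly F z).coeff i) := fun i => by
    rw [wild_minpoly E hp hu hl0 hwz hw hdeg hli]
    exact asPoly_isOL_coeff hπ' p _ l hξ.isOL i
  have hder := wild_isOL_der_inv E hπ' hp hpπ hu hl0 hl hξ.isOL hwz hw hdeg hli
  have hadd := wild_pow_add E hπ' hp hu hl0 hl hξ hwz hw
  have huu : algebraMap A[X] L (C ((u⁻¹ : Aˣ) : A)) * algebraMap A[X] L (C (u : A)) = 1 := by
    rw [← map_mul, ← C_mul, Units.inv_mul, C_1, map_one]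
  set v : L := algebraMap A[X] L (C ((u⁻¹ : Aˣ) : A)) with hv
  have hvO : IsOL π v := isOL_algebraMap hπ' _
  -- the coordinate `u⁻¹` is not in `π O_F`
  have hno : ¬ IsPiOL π (algebraMap A[X] F (C ((u⁻¹ : Aˣ) : A))) := by
    intro h
    apply not_isPiOL_one (F := F) E hπ
    have := h.smul (C (u : A))
    rwa [Algebra.smul_def, ← map_mul, ← C_mul, Units.mul_inv, C_1, map_one] at this
  have hcoord : v * z ^ (p - 1) = ∑ j : Fin p,
      (if j = ⟨p - 1, by omega⟩ then algebraMap A[X] F (C ((u⁻¹ : Aˣ) : A)) else 0)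
        • z ^ (j : ℕ) := by
    simp only [ite_smul, zero_smul, Finset.sum_ite_eq', Finset.mem_univ, if_true]
    rw [Algebra.smul_def, ← IsScalarTower.algebraMap_apply]
  refine ⟨(isOL_one hπ').add hπ' (hvO.mul hπ' (hz.pow hπ' _)), ?_, ?_, ?_⟩
  · obtain ⟨m, rfl⟩ : ∃ m, p = m + 2 := ⟨p - 2, by omega⟩
    have h1 : (1 + v * z ^ (m + 2 - 1)) ^ 2 - (1 + v * z ^ (m + 2 - 1)) =
        (v * v * z ^ m) * (z ^ (m + 2) + algebraMap A[X] L (C (u : A)) * z) := by
      have h2 : m + 2 - 1 = m + 1 := by omega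
      rw [h2]
      linear_combination (- v * z ^ (m + 1)) * huu
    rw [h1]
    exact hadd.mul_left hπ' ((hvO.mul hπ' hvO).mul hπ' (hz.pow hπ' _))
  · intro h
    have h6 : 1 + v * z ^ (p - 1) = ∑ j : Fin p,
        ((if j = ⟨0, by omega⟩ then 1 else 0) +
          (if j = ⟨p - 1, by omega⟩ then algebraMap A[X] F (C ((u⁻¹ : Aˣ) : A)) else 0))
          • z ^ (j : ℕ) := by
      simp_rw [add_smul, Finset.sum_add_distrib, ← hcoord, ite_smul, zero_smul]
      simp
    rw [h6] at h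
    have h7 := mono_coeff_pi E hπ' p z hdeg hzli hz hcoef hder _ h ⟨0, by omega⟩
    rw [if_pos rfl, if_neg (by simp only [Fin.mk.injEq]; omega), add_zero] at h7
    exact not_isPiOL_one (F := F) E hπ h7
  · intro h
    rw [add_sub_cancel_left, hcoord] at h
    have h7 := mono_coeff_pi E hπ' p z hdeg hzli hz hcoef hder _ h ⟨p - 1, by omega⟩
    rw [if_pos rfl] at h7
    exact hno h7

end Wild

/-- **Theorem G + the wild Kummer (Artin–Schreier) step.**  `p` = residue characteristic,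
`ζ ∈ A` a primitive `p`-th root of `1`.  There is no field `L = F(w)`, `[L : F] = p`,
`w ^ p = 1 + (ζ - 1) ^ p ξ` with `ξ ∈ π O_F`, satisfying (H0), (H2) (and (H1) for `F`). -/
theorem GKw {A E F L : Type*} [CommRing A] [IsDomain A] [IsDiscreteValuationRing A]
    [Field E] [Field F] [Field L] [CharZero E] [Algebra A E]
    [Algebra E F] [FiniteDimensional E F]
    [Algebra E L] [Algebra A L] [IsScalarTower A E L] [FiniteDimensional E L]
    [Algebra F L] [IsScalarTower E F L]
    (π : A) (hπ : Irreducible π) (x : E) (hx : Transcendental A x)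
    (hgen : ∀ c : E, ∃ p q : A[X], q ≠ 0 ∧ c * aeval x q = aeval x p)
    (H1 : TracePerfectx F π x)
    (p : ℕ) (hp : p.Prime) (hpπ : π ∣ (p : A)) (ζ : A) (hζ : IsPrimitiveRoot ζ p)
    (ξ : F) (hξ : IsPiOLx π x ξ)
    (w : L) (hw : w ^ p = algebraMap F L (1 + algebraMap E F (algebraMap A E (ζ - 1)) ^ p * ξ))
    (hdeg : Module.finrank F L = p)
    (hli : LinearIndependent F (fun j : Fin p => w ^ (j : ℕ)))
    (H0 : ∀ z : L, IsIntegral A z → z ∈ Set.range (algebraMap A L))
    (B0 Binf : Finset A)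
    (hB0 : ∀ β ∈ B0, ∀ β' ∈ B0, π ∣ β - β' → β = β')
    (hBinf : ∀ β ∈ Binf, ∀ β' ∈ Binf, π ∣ β - β' → β = β')
    (H2 : Unramx L π x B0) (H2' : Unramx L π x⁻¹ Binf) : False := by
  obtain ⟨u, hu⟩ := exists_unit_natCast_eq hp hζ
  have hl0 : ζ - 1 ≠ 0 := sub_ne_zero.2 (hζ.ne_one hp.one_lt)
  have hl : π ∣ ζ - 1 := dvd_sub_one_of_dvd_natCast hπ.prime hp hpπ hζ
  have key : ∃ e : L, TracePerfectx L π x ∧ IsOLx π x e ∧ IsPiOLx π x (e ^ 2 - e) ∧
      ¬ IsPiOLx π x e ∧ ¬ IsPiOLx π x (e - 1) := by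
    letI := algE (A := A) x
    letI := algL (A := A) F x
    letI := algL (A := A) L x
    haveI := isScalarTower_alg (A := A) (L := F) x
    haveI := isScalarTower_alg (A := A) (L := L) x
    haveI := isScalarTower_algL (A := A) (F := F) (L := L) x
    haveI := isFractionRing_algE hx hgen
    have hcL : algebraMap A[X] L (C (ζ - 1)) ≠ 0 := algebraMap_C_ne_zero E hl0
    have hcF : algebraMap A[X] F (C (ζ - 1)) = algebraMap E F (algebraMap A E (ζ - 1)) := by
      show algebraMap E F (aeval x (C (ζ - 1))) = _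
      rw [aeval_C]
    have hwz : w = 1 + algebraMap A[X] L (C (ζ - 1)) * ((w - 1) / algebraMap A[X] L (C (ζ - 1))) := by
      rw [mul_div_cancel₀ _ hcL]; ring
    have hw' : w ^ p = algebraMap F L (1 + algebraMap A[X] F (C (ζ - 1)) ^ p * ξ) := by
      rw [hcF]; exact hw
    exact ⟨_, wild_tracePerfect hπ.prime hp hpπ hu hl0 hl (IsPiOL.isOL hξ) hwz hw' hdeg hli H1,
      wild_idempotent E hπ hp hpπ hu hl0 hl hξ hwz hw' hdeg hli⟩
  obtain ⟨e, H1L, he, hee, hne0, hne1⟩ := key
  rcases theoremG π hπ x hx hgen H0 H1L B0 Binf hB0 hBinf H2 H2' _ he hee with h | h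
  · exact hne0 h
  · exact hne1 h

end Fermat.Agent.S33
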