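import Fermat.Agent.Crux.GM.Main
import Fermat.Agent.S33.Rig.GKw

/-!
# S33 / Rig / CoreW : `GoodCoord` + `GKw`  (wild copy of `Crux/GM/Core` and `Crux/GM/Main`)

The exponent is the residue characteristic `ℓ`; instead of `ȳ₁ = ȳ₂` we ask
`y₁ - y₂ ∈ (ζ - 1) ^ ℓ π A((q))`, `ζ ∈ A` a primitive `ℓ`-th root of `1`.
-/

set_option autoImplicit false

open Polynomial ModularCurve AlgebraicCurve
open scoped IntermediateField

namespace Fermat.Agent.S33

open Fermat.Agent.Crux.G Fermat.Agent.Crux.GM Fermat.Agent.S28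
open Fermat.Agent.S24 (Kb FN)

section

variable (M : ℕ) [NeZero M] (ℓ : ℕ) (xh : LaurentSeries ℤ) (β : ℤ) (n : ℕ)
variable {A K k : Type} [CommRing A] [IsDomain A] [IsDiscreteValuationRing A] [Field K]
  [Algebra A K] [IsFractionRing A K] [Algebra K Kb] [Field k] (r : A →+* k) (π : A)
variable {E F L : Type} [Field E] [Field F] [Field L] [Algebra A E] [Algebra E F]
  [Algebra E L] [Algebra A L] [IsScalarTower A E L] [Algebra F L] [IsScalarTower E F L]
variable (x : E) (Φ : L →+* LaurentSeries K)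

/-- **wild GM-Core (abstract form).** -/
theorem core_abstract_w [PerfectField k] [CharZero E] [FiniteDimensional E F]
    [FiniteDimensional E L] (hℓ : ℓ.Prime)
    (hx : GoodCoord M ℓ xh β n)
    (hr : Function.Surjective r) (hrℓ : r ℓ = 0) (hπ : Irreducible π)
    (hxt : Transcendental A x)
    (hgen : ∀ c : E, ∃ p q : A[X], q ≠ 0 ∧ c * aeval x q = aeval x p)
    (hΦA : ∀ a : A, Φ (algebraMap A L a) = HahnSeries.C (algebraMap A K a))
    (hΦx : Φ (algebraMap E L x) = castS K xh)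
    (hΦF : ∀ z : LaurentSeries K, z ∈ modularFunctionFieldFullC K M ↔
      ∃ f : F, Φ (algebraMap F L f) = z)
    (hn : Module.finrank E F = n)
    (ζ : A) (hζ : IsPrimitiveRoot ζ ℓ) (W : F) (w : L) (hw : w ^ ℓ = algebraMap F L W)
    (hdeg : Module.finrank F L = ℓ)
    (hli : LinearIndependent F (fun j : Fin ℓ => w ^ (j : ℕ)))
    (y₁ y₂ y₃ : LaurentSeries A) (hne : coeffMap r y₂ ≠ 0)
    (hsub : y₁ - y₂ = HahnSeries.C ((ζ - 1) ^ ℓ * π) * y₃)
    (hW : Φ (algebraMap F L W) * coeffMap (algebraMap A K) y₂ = coeffMap (algebraMap A K) y₁)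
    (W' : FN M) (hW' : (W' : LaurentSeries Kb) = coeffMap (algebraMap K Kb) (Φ (algebraMap F L W)))
    (hdiv : ∀ P : Place Kb (FN M), (ℓ : ℤ) ∣ P.ord W') : False := by
  classical
  obtain ⟨H1, hQ1, hQ2⟩ := H1_of_goodCoord M ℓ xh β n r π x Φ hℓ hx hr hrℓ hπ hxt hgen hΦA hΦx hΦF hn
  obtain ⟨hrβ, β', hβ'⟩ := exists_inv_intCast ℓ β r hℓ hr hrℓ hx.hβ
  have hrπ := map_irreducible_eq_zero r π hr hπ
  have hιinj : Function.Injective (coeffMap (algebraMap A K)) :=
    Build.coeffMap_injective _ (IsFractionRing.injective A K)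
  have hred : coeffMap r y₁ = coeffMap r y₂ := by
    rw [← sub_eq_zero, ← map_sub, hsub, map_mul, HahnSeries.C_apply, coeffMap_single, map_mul, hrπ,
      mul_zero, HahnSeries.single_eq_zero, zero_mul]
  have hy1 : coeffMap (algebraMap A K) y₁ ≠ 0 := by
    intro h
    have : y₁ = 0 := hιinj (by rw [h, map_zero])
    rw [this, map_zero] at hred
    exact hne hred.symm
  have hΦW0 : Φ (algebraMap F L W) ≠ 0 := by
    intro h
    rw [h, zero_mul] at hW
    exact hy1 hW.symm
  have hW0 : W ≠ 0 := by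
    rintro rfl
    simp at hΦW0
  obtain ⟨H2, H2'⟩ := H2_of_goodCoord M ℓ xh β n π x Φ hx hπ hxt hgen hΦA hΦx hΦF hn ℓ hℓ.pos W hW0 w
    hw hdeg hli W' hW' hdiv β' hβ' {0, (β : A)} {0, β'} (by simp) (by simp) (by simp) (by simp)
  have hndvd : ∀ a : A, r a ≠ 0 → ¬ π ∣ a := by
    rintro a ha ⟨b, rfl⟩
    rw [map_mul, hrπ, zero_mul] at ha
    exact ha rfl
  have hrβ' : r β' ≠ 0 := by
    intro h
    have := congrArg r hβ'
    rw [map_mul, h, zero_mul, map_one] at this
    exact zero_ne_one this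
  have hπℓ : π ∣ (ℓ : A) := by
    have h1 : (ℓ : A) ∈ IsLocalRing.maximalIdeal A := by
      rw [← ker_eq_maximalIdeal r hr, RingHom.mem_ker]
      exact hrℓ
    rw [hπ.maximalIdeal_eq, Ideal.mem_span_singleton] at h1
    exact h1
  have hl0 : ζ - 1 ≠ 0 := sub_ne_zero.2 (hζ.ne_one hℓ.one_lt)
  -- the element `λ` in `F`
  set lF : F := algebraMap E F (algebraMap A E (ζ - 1)) with hlF
  have hΦl : Φ (algebraMap F L lF) = HahnSeries.C (algebraMap A K (ζ - 1)) := by
    rw [hlF, ← IsScalarTower.algebraMap_apply E F L, ← IsScalarTower.algebraMap_apply A E L, hΦA]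
  have hlF0 : lF ≠ 0 := by
    intro h
    rw [h, map_zero, map_zero] at hΦl
    have h2 : algebraMap A K (ζ - 1) = 0 := by
      have := congrArg (fun s => s.coeff 0) hΦl
      simpa using this.symm
    exact hl0 ((map_eq_zero_iff _ (IsFractionRing.injective A K)).1 h2)
  have hWξ : W = 1 + lF ^ ℓ * ((W - 1) / lF ^ ℓ) := by
    rw [mul_div_cancel₀ _ (pow_ne_zero ℓ hlF0)]; ring
  have hξ : IsPiOLx π x ((W - 1) / lF ^ ℓ) := by
    refine hQ2 _ (HahnSeries.C π * y₃) y₂ hne ?_ ?_
    · rw [map_mul, HahnSeries.C_apply, coeffMap_single, hrπ, HahnSeries.single_eq_zero, zero_mul]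
    · have hC0 : (HahnSeries.C (algebraMap A K (ζ - 1)) : LaurentSeries K) ^ ℓ ≠ 0 := by
        rw [← hΦl]
        exact pow_ne_zero _ (by simpa using hlF0)
      have h1 : coeffMap (algebraMap A K) (y₁ - y₂) =
          (HahnSeries.C (algebraMap A K (ζ - 1)) : LaurentSeries K) ^ ℓ *
            coeffMap (algebraMap A K) (HahnSeries.C π * y₃) := by
        have hC : ∀ a : A, coeffMap (algebraMap A K) (HahnSeries.C a) =
            HahnSeries.C (algebraMap A K a) := fun a => by
          rw [HahnSeries.C_apply, HahnSeries.C_apply, coeffMap_single]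
        rw [hsub, map_mul (coeffMap (algebraMap A K)), map_mul (coeffMap (algebraMap A K)), hC, hC,
          map_mul (algebraMap A K), map_pow (algebraMap A K), map_mul HahnSeries.C,
          map_pow HahnSeries.C, mul_assoc]
      rw [map_div₀, map_div₀, map_pow, map_pow, hΦl, map_sub, map_sub, map_one, map_one,
        div_mul_eq_mul_div, div_eq_iff hC0, sub_mul, hW, one_mul, ← map_sub, h1, mul_comm]
  refine GKw π hπ x hxt hgen H1 ℓ hℓ hπℓ ζ hζ _ hξ w (by rw [hw]; exact congrArg _ hWξ) hdeg hli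
    (H0_of_Phi Φ hΦA) {0, (β : A)} {0, β'} ?_ ?_ H2 H2'
  · intro a ha b hb hab
    simp only [Finset.mem_insert, Finset.mem_singleton] at ha hb
    rcases ha with rfl | rfl <;> rcases hb with rfl | rfl
    · rfl
    · exact absurd ((dvd_neg).mp (by simpa using hab)) (hndvd _ hrβ)
    · exact absurd (by simpa using hab) (hndvd _ hrβ)
    · rfl
  · intro a ha b hb hab
    simp only [Finset.mem_insert, Finset.mem_singleton] at ha hb
    rcases ha with rfl | rfl <;> rcases hb with rfl | rfl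
    · rfl
    · exact absurd ((dvd_neg).mp (by simpa using hab)) (hndvd _ hrβ')
    · exact absurd (by simpa using hab) (hndvd _ hrβ')
    · rfl

end

set_option maxHeartbeats 4000000 in
set_option synthInstance.maxHeartbeats 400000 in
/-- `core_abstract_w` for a tower of intermediate fields of `K((q))`. -/
theorem core_tower_w (M : ℕ) [NeZero M] (ℓ : ℕ) (hℓ : ℓ.Prime) (xh : LaurentSeries ℤ)
    (β : ℤ) (n : ℕ) (hx : GoodCoord M ℓ xh β n)
    {A K k : Type} [CommRing A] [IsDomain A] [IsDiscreteValuationRing A] [Field K] [CharZero K]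
    [Algebra A K] [IsFractionRing A K] [Algebra K Kb] [Field k] [PerfectField k]
    (r : A →+* k) (hr : Function.Surjective r) (hrℓ : r ℓ = 0) (π : A) (hπ : Irreducible π)
    (E0 : IntermediateField K (LaurentSeries K)) (F0 : IntermediateField E0 (LaurentSeries K))
    (L0 : IntermediateField F0 (LaurentSeries K))
    (hF0 : ∀ z, z ∈ modularFunctionFieldFullC K M ↔ z ∈ F0)
    (x : E0) (hx' : (x : LaurentSeries K) = castS K xh)
    (hxt : ∀ P : A[X], eval₂ ((algebraMap K E0).comp (algebraMap A K)) x P = 0 → P = 0)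
    (hgen : ∀ c : E0, ∃ p q : A[X], q ≠ 0 ∧
      c * eval₂ ((algebraMap K E0).comp (algebraMap A K)) x q =
        eval₂ ((algebraMap K E0).comp (algebraMap A K)) x p)
    (hn : Module.finrank E0 F0 = n)
    (ζ : A) (hζ : IsPrimitiveRoot ζ ℓ) (W : F0) (wL : L0)
    (hw : (wL : LaurentSeries K) ^ ℓ = (W : LaurentSeries K))
    (hdeg : Module.finrank F0 L0 = ℓ)
    (hli : LinearIndependent F0 (fun j : Fin ℓ => wL ^ (j : ℕ)))
    (y₁ y₂ y₃ : LaurentSeries A) (hne : coeffMap r y₂ ≠ 0)
    (hsub : y₁ - y₂ = HahnSeries.C ((ζ - 1) ^ ℓ * π) * y₃)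
    (hW : (W : LaurentSeries K) * coeffMap (algebraMap A K) y₂ = coeffMap (algebraMap A K) y₁)
    (W' : FN M) (hW' : (W' : LaurentSeries Kb) = coeffMap (algebraMap K Kb) (W : LaurentSeries K))
    (hdiv : ∀ P : Place Kb (FN M), (ℓ : ℤ) ∣ P.ord W') : False := by
  let iAE : Algebra A E0 := ((algebraMap K E0).comp (algebraMap A K)).toAlgebra
  let iAL : Algebra A L0 :=
    ((algebraMap E0 L0).comp ((algebraMap K E0).comp (algebraMap A K))).toAlgebra
  have i1 : IsScalarTower A E0 L0 := IsScalarTower.of_algebraMap_eq fun _ => rfl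
  have i2 : CharZero E0 := charZero_of_injective_algebraMap (algebraMap K E0).injective
  have i3 : FiniteDimensional E0 F0 := FiniteDimensional.of_finrank_pos (by rw [hn]; exact hx.n_pos)
  have i4 : FiniteDimensional F0 L0 := FiniteDimensional.of_finrank_pos (by rw [hdeg]; exact hℓ.pos)
  have i5 : FiniteDimensional E0 L0 := Module.Finite.trans F0 L0
  refine core_abstract_w M ℓ xh β n r π (E := E0) (F := F0) (L := L0) x
    (algebraMap L0 (LaurentSeries K)) hℓ hx hr hrℓ hπ (transcendental_iff.2 hxt) hgen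
    ?_ hx' ?_ hn ζ hζ W wL (Subtype.ext hw) hdeg hli y₁ y₂ y₃ hne hsub hW W' hW' hdiv
  · intro a
    change algebraMap K (LaurentSeries K) (algebraMap A K a) = _
    rw [algebraMap_laurentSeries_eq_single, HahnSeries.C_apply]
  · intro z
    rw [hF0]
    exact ⟨fun hz => ⟨⟨z, hz⟩, rfl⟩, fun ⟨f, hf⟩ => hf ▸ f.2⟩

set_option maxHeartbeats 4000000 in
set_option synthInstance.maxHeartbeats 400000 in
/-- **wild GM-Main.** -/
theorem coreK_of_goodCoord_w (M : ℕ) [NeZero M] (ℓ : ℕ) (hℓ : ℓ.Prime) (xh : LaurentSeries ℤ)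
    (β : ℤ) (n : ℕ) (hx : GoodCoord M ℓ xh β n)
    {A K k : Type} [CommRing A] [IsDomain A] [IsDiscreteValuationRing A] [Field K]
    [Algebra A K] [IsFractionRing A K] [Algebra K Kb] [Field k] [PerfectField k]
    (r : A →+* k) (hr : Function.Surjective r) (hrℓ : r ℓ = 0) (π : A) (hπ : Irreducible π)
    (ζ : A) (hζ : IsPrimitiveRoot ζ ℓ) (y₁ y₂ y₃ : LaurentSeries A)
    (h₁ : coeffMap (algebraMap A K) y₁ ∈ modularFunctionFieldFullC K M)
    (h₂ : coeffMap (algebraMap A K) y₂ ∈ modularFunctionFieldFullC K M)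
    (hne : coeffMap r y₂ ≠ 0) (hsub : y₁ - y₂ = HahnSeries.C ((ζ - 1) ^ ℓ * π) * y₃)
    (hlc : ∃ c : K, c ^ ℓ =
      (coeffMap (algebraMap A K) y₁ / coeffMap (algebraMap A K) y₂).leadingCoeff)
    (W' : FN M) (hW' : (W' : LaurentSeries Kb) = coeffMap (algebraMap K Kb)
      (coeffMap (algebraMap A K) y₁ / coeffMap (algebraMap A K) y₂))
    (hdiv : ∀ P : Place Kb (FN M), (ℓ : ℤ) ∣ P.ord W') :
    ∃ s ∈ modularFunctionFieldFullC K M,
      s ^ ℓ = coeffMap (algebraMap A K) y₁ / coeffMap (algebraMap A K) y₂ := by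
  classical
  have hK0 : CharZero K :=
    ((algebraMap K Kb).charZero_iff (algebraMap K Kb).injective).2 inferInstance
  have hιinj : Function.Injective (coeffMap (algebraMap A K)) := by
    intro x y h
    ext m
    have := congrArg (fun z => z.coeff m) h
    exact IsFractionRing.injective A K (by simpa using this)
  have hrπ := map_irreducible_eq_zero r π hr hπ
  have hred : coeffMap r y₁ = coeffMap r y₂ := by
    rw [← sub_eq_zero, ← map_sub, hsub, map_mul, HahnSeries.C_apply, coeffMap_single, map_mul, hrπ,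
      mul_zero, HahnSeries.single_eq_zero, zero_mul]
  have hy2 : coeffMap (algebraMap A K) y₂ ≠ 0 := by
    intro h
    have : y₂ = 0 := hιinj (by rw [h, map_zero])
    exact hne (by rw [this, map_zero])
  have hy1 : coeffMap (algebraMap A K) y₁ ≠ 0 := by
    intro h
    have : y₁ = 0 := hιinj (by rw [h, map_zero])
    rw [this, map_zero] at hred
    exact hne hred.symm
  set Ws : LaurentSeries K := coeffMap (algebraMap A K) y₁ / coeffMap (algebraMap A K) y₂ with hWs
  have hWs0 : Ws ≠ 0 := div_ne_zero hy1 hy2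
  have hWsF : Ws ∈ modularFunctionFieldFullC K M := div_mem h₁ h₂
  have hW'0 : W' ≠ 0 := by
    rintro rfl
    rw [ZeroMemClass.coe_zero] at hW'
    exact hWs0 ((coeffMap (algebraMap K Kb)).injective (by rw [← hW', map_zero]))
  have hord : (ℓ : ℤ) ∣ Ws.order := by
    have := dvd_order_coe M ℓ W' hW'0 hdiv
    rwa [hW', Main.order_coeffMap] at this
  obtain ⟨w, hw⟩ := exists_pow_eq_laurent ℓ hℓ.pos Ws hWs0 hord hlc
  by_contra hcon
  push Not at hcon
  have hle : K⟮castS K xh⟯ ≤ modularFunctionFieldFullC K M :=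
    IntermediateField.adjoin_simple_le_iff.2 (hx.mem K)
  have htK : Transcendental K (castS K xh) :=
    transcendental_of_order_neg _ (by rw [order_castS xh hx.leading]; exact hx.order_neg)
  have hno : ∀ b : IntermediateField.extendScalars hle, b ^ ℓ ≠ ⟨Ws, hWsF⟩ := by
    intro b hb
    exact hcon b.1 b.2 (congrArg Subtype.val hb)
  exact core_tower_w M ℓ hℓ xh β n hx r hr hrℓ π hπ K⟮castS K xh⟯
    (IntermediateField.extendScalars hle) (IntermediateField.extendScalars hle)⟮w⟯
    (fun _ => Iff.rfl) (IntermediateField.AdjoinSimple.gen K (castS K xh)) rfl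
    (fun P hP => Main.eq_zero_of_eval₂_gen (A := A) _ htK _ (fun _ => rfl) P hP)
    (fun c => Main.exists_frac_gen (A := A) _ _ (fun _ => rfl) c)
    ((IntermediateField.relfinrank_eq_finrank_of_le hle).symm.trans (hx.deg K))
    ζ hζ ⟨Ws, hWsF⟩ (IntermediateField.AdjoinSimple.gen _ w) hw
    (Main.finrank_kummer ℓ hℓ _ w hw hno) (Main.linearIndependent_kummer ℓ hℓ _ w hw hno)
    y₁ y₂ y₃ hne hsub (div_mul_cancel₀ _ hy2) W' hW' hdiv

end Fermat.Agent.S33
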