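import Fermat.Agent.SS.Formal.Norm

/-!
# S33 / Rig / P3 : the pull-back `Kum M 3 → Kum (M * 2) 3` is injective (`M` odd)

Needed for `Rig M 3`, `M` odd: a good base coordinate for the residue characteristic `3` exists only
at even levels, and `[F_{2M} : F_M] = 3` is not prime to the exponent `3` (no norm trick).

PROOF of `exists_cube_root`.  `q = 2`.  `α = heckeAlphaBar Qb M 2`, `β = heckeBetaBar Qb M 2`,
`w` with `IsAL M 2 w` (`SS.exists_isAL M 2 Nat.prime_two hM`).  Let `h ∈ F_{2M}`, `h ^ 3 = α W`.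
`letI := algebraAlong α`, `letI := (ES.H1.baseHom M 2).toAlgebra`, as in `SS.Vq_normA`.
1. `g := w h` satisfies `g ^ 3 = w (α W) = β W`, i.e. `(g : ℚ̄((t))) ^ 3 = Vq 2 W`
   (`coe_heckeBetaBar`), and `(Vq 2 h) ^ 3 = Vq 2 (α W) = Vq 2 W` (`coe_heckeAlphaBar`).  `W ≠ 0`, so
   `(g / Vq 2 h) ^ 3 = 1` in the field `ℚ̄((t))`; a root of `X ^ 3 - 1` in `ℚ̄((t))` is a constant
   (`X ^ 3 - 1` splits over `ℚ̄`: it has three distinct roots `cst ξ`, `ξ ∈ μ_3(ℚ̄)`; or: an element of
   `ℚ̄((t))` algebraic over `ℚ̄` is constant: `Crux.GM.eq_C_of_isAlgebraic`-type lemmas in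
   `Crux/GM/AlgClosed.lean`).  So `g = cst ξ * Vq 2 h`.
2. So `twist z g = g` for `z ^ 2 = 1` (`ES.twist_Vq 2 z hz`, `twist` of a constant): the two embeddings
   `H1.embAll M 2 w hw.alpha (some z)`, `z ∈ μ_2`, agree on `h` (`H1.embAll_some_apply`,
   `H1.zHom_apply`).
3. `finrank (F_M) (F_{2M}) = 3` (`ES.finrankAlong_heckeAlpha M 2 Nat.prime_two hM`) is prime, so
   `F_M⟮h⟯ = ⊥` or `⊤` (`IntermediateField.finrank` divides; `IntermediateField.finrank_eq_one_iff`,
   `IntermediateField.finrank_adjoin_simple_eq_one_iff`, `Module.finrank_mul_finrank`).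
   If `⊤`: two `F_M`-algebra homs which agree on `h` are equal
   (`IntermediateField.algHom_ext_of_eq_adjoin` / `AlgHom.ext_of_adjoin_eq_top`), which contradicts
   `H1.embAll_injective M 2 Nat.prime_two w hw.alpha hw.beta` (`1 ≠ -1` in `μ_2(ℚ̄)`).
   If `⊥`: `h = α h₀`, and `α (h₀ ^ 3) = α W`, `α` injective.
-/

set_option autoImplicit false
set_option linter.style.haveILetI false

open AlgebraicCurve ModularCurve

namespace Fermat.Agent.S33

open Fermat.Agent.ES Fermat.Agent.SS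

/-- a cube root of unity in `ℚ̄((t))` is invariant under all twists (it is a constant). -/
theorem P3_twist_of_cube_eq_one (z : Qbˣ) (u : LaurentSeries Qb) (hu : u ^ 3 = 1) :
    twist z u = u := by
  obtain ⟨ξ, hξ⟩ := exists_primitiveRoot_Qb 3
  have hξ' : IsPrimitiveRoot (algebraMap Qb (LaurentSeries Qb) ξ) 3 :=
    hξ.map_of_injective (algebraMap Qb (LaurentSeries Qb)).injective
  obtain ⟨i, -, hi⟩ := hξ'.eq_pow_of_pow_eq_one hu
  rw [← hi, ← map_pow]
  ext n
  rw [twist_coeff, algebraMap_laurentSeries_eq_single, HahnSeries.coeff_single]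
  split_ifs with h
  · subst h; simp
  · simp

/-- in an extension of prime degree, an element on which two distinct embeddings agree lies in the base. -/
theorem P3_mem_base {F E Ω : Type*} [Field F] [Field E] [Field Ω] [Algebra F E] [Algebra F Ω]
    (hfr : (Module.finrank F E).Prime) (h : E) (φ ψ : E →ₐ[F] Ω) (hne : φ ≠ ψ)
    (hφψ : φ h = ψ h) : ∃ h₀ : F, algebraMap F E h₀ = h := by
  have hsimple := IntermediateField.isSimpleOrder_of_finrank_prime F E hfr
  rcases hsimple.eq_bot_or_eq_top (IntermediateField.adjoin F {h}) with hbot | htop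
  · have hmem : h ∈ (⊥ : IntermediateField F E) := by
      rw [← hbot]
      exact IntermediateField.mem_adjoin_simple_self F h
    exact IntermediateField.mem_bot.mp hmem
  · exfalso
    apply hne
    have key : ∀ x ∈ IntermediateField.adjoin F {h}, φ x = ψ x := by
      intro x hx
      induction hx using IntermediateField.adjoin_induction with
      | mem y hy =>
        rw [Set.mem_singleton_iff] at hy
        rw [hy]
        exact hφψ
      | algebraMap c => rw [AlgHom.commutes, AlgHom.commutes]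
      | add a b _ _ iha ihb => rw [map_add, map_add, iha, ihb]
      | inv a _ iha => rw [map_inv₀, map_inv₀, iha]
      | mul a b _ _ iha ihb => rw [map_mul, map_mul, iha, ihb]
    ext x
    exact key x (by rw [htop]; trivial)

/-- TASK `S33/Rig-P3`. -/
theorem exists_cube_root (M : ℕ) [NeZero M] (hM : ¬ 2 ∣ M) (W : FF M) (hW : W ≠ 0)
    (h : FF (M * 2)) (hh : h ^ 3 = heckeAlphaBar Qb M 2 W) : ∃ h₀ : FF M, h₀ ^ 3 = W := by
  obtain ⟨w, hw⟩ := exists_isAL M 2 Nat.prime_two hM
  letI := algebraAlong (heckeAlphaBar Qb M 2)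
  letI := (H1.baseHom M 2).toAlgebra
  have hW' : (W : LaurentSeries Qb) ≠ 0 := fun h0 => hW (Subtype.ext h0)
  -- step 1
  have hg3 : ((w h : FF (M * 2)) : LaurentSeries Qb) ^ 3 = Vq Qb 2 (W : LaurentSeries Qb) := by
    have h1 : (w h) ^ 3 = heckeBetaBar Qb M 2 W := by
      rw [← map_pow, hh, hw.alpha]
    have h2 := congrArg (fun x : FF (M * 2) => (x : LaurentSeries Qb)) h1
    simpa using h2
  have hV3 : (Vq Qb 2 (h : LaurentSeries Qb)) ^ 3 = Vq Qb 2 (W : LaurentSeries Qb) := by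
    have h2 := congrArg (fun x : FF (M * 2) => (x : LaurentSeries Qb)) hh
    have h3 : (h : LaurentSeries Qb) ^ 3 = (W : LaurentSeries Qb) := by simpa using h2
    rw [← map_pow, h3]
  have hVW : Vq Qb 2 (W : LaurentSeries Qb) ≠ 0 := by
    intro h0
    exact hW' (Vq_injective (R := Qb) 2 (by rw [h0, map_zero]))
  have hV0 : Vq Qb 2 (h : LaurentSeries Qb) ≠ 0 := by
    intro h0
    rw [h0, zero_pow (by norm_num)] at hV3
    exact hVW hV3.symm
  set u : LaurentSeries Qb := ((w h : FF (M * 2)) : LaurentSeries Qb) / Vq Qb 2 (h : LaurentSeries Qb)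
    with hu
  have hu3 : u ^ 3 = 1 := by
    rw [hu, div_pow, hg3, hV3, div_self hVW]
  have hgu : ((w h : FF (M * 2)) : LaurentSeries Qb) = u * Vq Qb 2 (h : LaurentSeries Qb) := by
    rw [hu, div_mul_cancel₀ _ hV0]
  -- step 2
  have htw : ∀ z : rootsOfUnity 2 Qb, twist (z : Qbˣ) ((w h : FF (M * 2)) : LaurentSeries Qb)
      = ((w h : FF (M * 2)) : LaurentSeries Qb) := by
    intro z
    rw [hgu, map_mul, P3_twist_of_cube_eq_one _ u hu3,
      twist_Vq 2 (z : Qbˣ) ((mem_rootsOfUnity _ _).mp z.2)]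
  have hemb : ∀ z z' : rootsOfUnity 2 Qb,
      H1.embAll M 2 w hw.alpha (some z) h = H1.embAll M 2 w hw.alpha (some z') h := by
    intro z z'
    rw [H1.embAll_some_apply, H1.embAll_some_apply, H1.zHom_apply, H1.zHom_apply, htw, htw]
  -- step 3
  have hm1 : (-1 : Qbˣ) ∈ rootsOfUnity 2 Qb := by
    rw [mem_rootsOfUnity]; norm_num
  have hne : (⟨-1, hm1⟩ : rootsOfUnity 2 Qb) ≠ 1 := by
    intro h0
    have h1 : ((-1 : Qbˣ) : Qb) = 1 := by
      have := congrArg (fun z : rootsOfUnity 2 Qb => ((z : Qbˣ) : Qb)) h0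
      simpa using this
    norm_num at h1
  have hne' : H1.embAll M 2 w hw.alpha (some ⟨-1, hm1⟩) ≠ H1.embAll M 2 w hw.alpha (some 1) := by
    intro heq
    have := H1.embAll_injective M 2 Nat.prime_two w hw.alpha hw.beta heq
    exact hne (Option.some_injective _ this)
  obtain ⟨h₀, hh₀⟩ := P3_mem_base (F := FF M) (E := FF (M * 2)) (Ω := H1.Om)
    (by
      have hfr : finrankAlong Qb (heckeAlphaBar Qb M 2) = 2 + 1 :=
        finrankAlong_heckeAlpha M 2 Nat.prime_two hM
      have h3 : (finrankAlong Qb (heckeAlphaBar Qb M 2)).Prime := by rw [hfr]; norm_num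
      exact h3) h _ _ hne' (hemb _ _)
  refine ⟨h₀, ?_⟩
  have h1 : heckeAlphaBar Qb M 2 h₀ = h := hh₀
  apply (heckeAlphaBar Qb M 2).toRingHom.injective
  show heckeAlphaBar Qb M 2 (h₀ ^ 3) = heckeAlphaBar Qb M 2 W
  rw [map_pow, h1, hh]

/-- the pull-back `Kum M 3 → Kum (M * 2) 3` is injective. -/
theorem pullA_two_three_injective (M : ℕ) [NeZero M] (hM : ¬ 2 ∣ M) (z : Kum M 3)
    (hz : pullA M 2 3 z = 0) : z = 0 := by
  obtain ⟨f, rfl⟩ := Kum.mk_surjective z
  rw [pullA_mk, Kum.mk_eq_zero_iff] at hz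
  obtain ⟨h, hh⟩ := hz
  obtain ⟨h₀, hh₀⟩ := exists_cube_root M hM ((f : (FF M)ˣ) : FF M) (Units.ne_zero _) (h : FF (M * 2))
    (by
      have := congrArg (fun u : (FF (M * 2))ˣ => (u : FF (M * 2))) hh
      simpa using this)
  rw [Kum.mk_eq_zero_iff]
  have h0 : h₀ ≠ 0 := by
    rintro rfl
    rw [zero_pow (by norm_num)] at hh₀
    exact (Units.ne_zero _) hh₀.symm
  exact ⟨Units.mk0 h₀ h0, Units.ext (by simpa using hh₀)⟩

end Fermat.Agent.S33
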