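import Fermat.Agent.Crux.Main
import Fermat.Agent.S33.Level.Stubs
import Fermat.Agent.S33.Rig.CoreW
import Fermat.Agent.S33.Rig.P3

/-!
# S33 / Rig / Main : `Rig M p`  (`p` odd, `p ∤ M`)

A class of `Kum M p` with a representative `≡ const mod p²` (Gauss valuation of `A((q))`) is trivial.

* `CongOne.exists_ff` : the two series in the definition of `CongOne` can be taken in `F_N`;
* `rig_of_goodCoord`  : descent `(ℚ̄, A) → (K₀, A₀)`, `ζ_p ∈ K₀`, and `coreK_of_goodCoord_w`;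
* `rig`               : admissible levels directly; `p = 3`, `M` odd through level `2 M` (`P3`).
-/

set_option autoImplicit false

open AlgebraicCurve ModularCurve

namespace Fermat.Agent.S33

open Fermat.Agent.ES Fermat.Agent.SS Fermat.Agent.Crux

noncomputable section

variable {A : ValuationSubring Qb}

/-- The series in `CongOne` can be taken in the function field. -/
theorem CongOne.exists_ff {N : ℕ} [NeZero N] {c : A} (f : FF N) (hf : f ≠ 0)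
    (h : CongOne A c (f : LaurentSeries Qb)) :
    ∃ Y₁ Y₂ Y₃ : LaurentSeries A, coeffMap A.subtype Y₁ ∈ modularFunctionFieldBar N ∧
      coeffMap A.subtype Y₂ ∈ modularFunctionFieldBar N ∧ coeffMap (resA A) Y₂ ≠ 0 ∧
      (f : LaurentSeries Qb) * coeffMap A.subtype Y₂ = coeffMap A.subtype Y₁ ∧
      Y₁ - Y₂ = HahnSeries.C c * Y₃ := by
  obtain ⟨y₁, y₂, y₃, h0, h1, h2⟩ := h
  obtain ⟨c₀, u, v, hc₀, huF, hvF, hu, hv, e⟩ := ES.exists_integral_fraction N A f hf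
  have e2 : cst c₀ * coeffMap A.subtype (u * y₂) = coeffMap A.subtype (y₁ * v) := by
    rw [map_mul, map_mul, ← h1]
    linear_combination (-(coeffMap A.subtype y₂)) * e
  have hred : RedTo A (cst c₀) (coeffMap (resA A) (y₁ * v) / coeffMap (resA A) (u * y₂)) := by
    have hne : coeffMap (resA A) (u * y₂) ≠ 0 := by
      rw [map_mul]; exact mul_ne_zero hu h0
    exact ⟨y₁ * v, u * y₂, hne, e2, by rw [div_mul_cancel₀ _ hne]⟩
  obtain ⟨d, hd, -⟩ := hred.const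
  have hCd : coeffMap A.subtype (HahnSeries.C d) = cst c₀ := by
    rw [cst, algebraMap_laurentSeries_eq_single, ← hd, HahnSeries.C_apply, coeffMap_single]
    rfl
  have e3 : HahnSeries.C d * u * y₂ = y₁ * v := by
    apply ES.coeffMap_subtype_injective A
    rw [mul_assoc, map_mul, hCd, e2]
  have e4 : (HahnSeries.C d * u - v) * y₂ = HahnSeries.C c * (v * y₃) := by
    linear_combination e3 + v * h2
  obtain ⟨y₄, hy₄⟩ := dvd_of_mul_dvd _ y₂ _ h0 e4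
  refine ⟨HahnSeries.C d * u, v, y₄, ?_, hvF, hv, ?_, hy₄⟩
  · rw [map_mul, hCd]
    exact mul_mem (IntermediateField.algebraMap_mem _ _) huF
  · rw [map_mul, hCd, e]

/-- `p² ∈ (ζ - 1) ^ p π R` in a domain `R ∋ ζ`, if `π ∣ ζ - 1` and `p ≥ 3`. -/
theorem exists_sq_eq {R : Type*} [CommRing R] [IsDomain R] {p : ℕ} (hp : p.Prime) (hp2 : p ≠ 2)
    {ζ π : R} (hζ : IsPrimitiveRoot ζ p) (hπ : π ∣ ζ - 1) :
    ∃ t : R, (p : R) ^ 2 = (ζ - 1) ^ p * π * t := by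
  obtain ⟨u, hu⟩ := exists_unit_natCast_eq hp hζ
  obtain ⟨s, hs⟩ := hπ
  obtain ⟨m, rfl⟩ : ∃ m, p = m + 3 := ⟨p - 3, by have := hp.two_le; omega⟩
  refine ⟨(u : R) ^ 2 * s * (ζ - 1) ^ m, ?_⟩
  rw [hu]
  have h1 : m + 3 - 1 = m + 2 := by omega
  rw [h1]
  calc ((u : R) * (ζ - 1) ^ (m + 2)) ^ 2
      = (ζ - 1) ^ (m + 3) * (ζ - 1) * ((u : R) ^ 2 * (ζ - 1) ^ m) := by ring
    _ = (ζ - 1) ^ (m + 3) * (π * s) * ((u : R) ^ 2 * (ζ - 1) ^ m) := by rw [← hs]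
    _ = _ := by ring

set_option maxHeartbeats 1000000 in
/-- The number field step. -/
theorem rig_step (M p : ℕ) [NeZero M] (hp : p.Prime) (hp2 : p ≠ 2) (xh : LaurentSeries ℤ) (β : ℤ)
    (n : ℕ) (hx : GM.GoodCoord M p xh β n) (hA : A.LiesOverPrime p)
    (Y₁ Y₂ Y₃ : LaurentSeries A)
    (h₁ : coeffMap A.subtype Y₁ ∈ modularFunctionFieldBar M)
    (h₂ : coeffMap A.subtype Y₂ ∈ modularFunctionFieldBar M)
    (hne : coeffMap (IsLocalRing.residue A) Y₂ ≠ 0)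
    (hsub : Y₁ - Y₂ = HahnSeries.C ((p : A) ^ 2) * Y₃)
    (hdiv : ∀ P : Place Qb (FF M), (p : ℤ) ∣ P.ord ((⟨_, h₁⟩ : FF M) / ⟨_, h₂⟩))
    (K₀ : Type) [Field K₀] [NumberField K₀] [Algebra K₀ Qb]
    (u₁ u₂ : LaurentSeries K₀)
    (hu₁ : u₁ ∈ modularFunctionFieldFullC K₀ M) (hu₂ : u₂ ∈ modularFunctionFieldFullC K₀ M)
    (hu₁' : coeffMap (algebraMap K₀ Qb) u₁ = coeffMap A.subtype Y₁)
    (hu₂' : coeffMap (algebraMap K₀ Qb) u₂ = coeffMap A.subtype Y₂)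
    (c₀ : K₀)
    (hc₀ : (algebraMap K₀ Qb c₀) ^ p
      = (coeffMap A.subtype Y₁ / coeffMap A.subtype Y₂).leadingCoeff)
    (ζ₀ : K₀) (hζ₀ : IsPrimitiveRoot ζ₀ p) :
    ∃ s : FF M, s ^ p = (⟨_, h₁⟩ : FF M) / ⟨_, h₂⟩ := by
  have hφ : Function.Injective (algebraMap K₀ Qb) := (algebraMap K₀ Qb).injective
  have hdvr : IsDiscreteValuationRing (A0 K₀ A) :=
    isDiscreteValuationRing_of_numberField _ (A0_ne_top K₀ A hp hA)
  have hperf : PerfectField (IsLocalRing.ResidueField (A0 K₀ A)) :=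
    perfectField_residueField _ p hp (residue_A0_natCast K₀ A hA)
  obtain ⟨π, hπ⟩ := IsDiscreteValuationRing.exists_irreducible (A0 K₀ A)
  obtain ⟨z₁, hz₁, hz₁'⟩ := exists_A0_series K₀ A u₁ Y₁ hu₁'
  obtain ⟨z₂, hz₂, hz₂'⟩ := exists_A0_series K₀ A u₂ Y₂ hu₂'
  have hpK : (HahnSeries.C ((p : K₀) ^ 2) : LaurentSeries K₀) ≠ 0 := by
    rw [Ne, map_eq_zero]
    exact pow_ne_zero 2 (Nat.cast_ne_zero.2 hp.ne_zero)
  have hCK : coeffMap (algebraMap K₀ Qb) (HahnSeries.C ((p : K₀) ^ 2))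
      = coeffMap A.subtype (HahnSeries.C ((p : A) ^ 2)) := by
    rw [HahnSeries.C_apply, HahnSeries.C_apply, coeffMap_single, coeffMap_single]
    congr 1
    simp
  obtain ⟨z₃, hz₃, -⟩ := exists_A0_series K₀ A ((u₁ - u₂) / HahnSeries.C ((p : K₀) ^ 2)) Y₃ (by
    have h0 : coeffMap (algebraMap K₀ Qb) (HahnSeries.C ((p : K₀) ^ 2)) ≠ 0 := by
      rw [Ne, map_eq_zero]; exact hpK
    rw [map_div₀, div_eq_iff h0, map_sub, hu₁', hu₂', ← map_sub, hsub, map_mul, hCK, mul_comm])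
  have hιinj : Function.Injective (coeffMap (algebraMap (A0 K₀ A) K₀)) := by
    intro x y h
    ext m
    have := congrArg (fun z => z.coeff m) h
    simp only [coeffMap_coeff] at this
    exact congrArg Subtype.val (Subtype.val_injective this)
  have hsub₀ : z₁ - z₂ = HahnSeries.C ((p : A0 K₀ A) ^ 2) * z₃ := by
    apply hιinj
    have hC : coeffMap (algebraMap (A0 K₀ A) K₀) (HahnSeries.C ((p : A0 K₀ A) ^ 2))
        = HahnSeries.C ((p : K₀) ^ 2) := by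
      rw [HahnSeries.C_apply, HahnSeries.C_apply, coeffMap_single, map_pow, map_natCast]
    rw [map_sub, map_mul, hz₁, hz₂, hz₃, hC, mul_div_cancel₀ _ hpK]
  -- the root of unity
  have hζA : ζ₀ ∈ A0 K₀ A := by
    show algebraMap K₀ Qb ζ₀ ∈ A
    exact mem_of_pow_eq_one A hp.ne_zero (by rw [← map_pow, hζ₀.pow_eq_one, map_one])
  have hζ : IsPrimitiveRoot (⟨ζ₀, hζA⟩ : A0 K₀ A) p :=
    IsPrimitiveRoot.of_map_of_injective (f := (A0 K₀ A).subtype) hζ₀ Subtype.val_injective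
  have hπp : π ∣ ((p : ℕ) : A0 K₀ A) := by
    have h1 : ((p : ℕ) : A0 K₀ A) ∈ IsLocalRing.maximalIdeal (A0 K₀ A) := by
      rw [← IsLocalRing.residue_eq_zero_iff]
      exact residue_A0_natCast K₀ A hA
    rw [hπ.maximalIdeal_eq, Ideal.mem_span_singleton] at h1
    exact h1
  obtain ⟨t, ht⟩ := exists_sq_eq hp hp2 hζ (dvd_sub_one_of_dvd_natCast hπ.prime hp hπp hζ)
  have hW : coeffMap (algebraMap K₀ Qb)
      (coeffMap (algebraMap (A0 K₀ A) K₀) z₁ / coeffMap (algebraMap (A0 K₀ A) K₀) z₂)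
      = coeffMap A.subtype Y₁ / coeffMap A.subtype Y₂ := by
    rw [map_div₀, hz₁, hz₂, hu₁', hu₂']
  have e4 : (((⟨_, h₁⟩ : FF M) / ⟨_, h₂⟩ : FF M) : LaurentSeries Qb) = coeffMap (algebraMap K₀ Qb)
      (coeffMap (algebraMap (A0 K₀ A) K₀) z₁ / coeffMap (algebraMap (A0 K₀ A) K₀) z₂) := by
    rw [IntermediateField.coe_div]; exact hW.symm
  have e1 : coeffMap (algebraMap (A0 K₀ A) K₀) z₁ ∈ modularFunctionFieldFullC K₀ M := by
    rw [hz₁]; exact hu₁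
  have e2 : coeffMap (algebraMap (A0 K₀ A) K₀) z₂ ∈ modularFunctionFieldFullC K₀ M := by
    rw [hz₂]; exact hu₂
  have e3 : ∃ c : K₀, c ^ p = (coeffMap (algebraMap (A0 K₀ A) K₀) z₁ /
      coeffMap (algebraMap (A0 K₀ A) K₀) z₂).leadingCoeff := by
    refine ⟨c₀, ?_⟩
    apply hφ
    rw [map_pow, ← leadingCoeff_coeffMap _ hφ, hW, ← hc₀]
  have e5 : z₁ - z₂ = HahnSeries.C (((⟨ζ₀, hζA⟩ : A0 K₀ A) - 1) ^ p * π) * (HahnSeries.C t * z₃) := by
    rw [hsub₀, ht, map_mul, mul_assoc]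
  have hK1 := coreK_of_goodCoord_w M p hp xh β n hx
    (A := A0 K₀ A) (K := K₀) (k := IsLocalRing.ResidueField (A0 K₀ A))
    (IsLocalRing.residue (A0 K₀ A)) IsLocalRing.residue_surjective
    (residue_A0_natCast K₀ A hA) π hπ ⟨ζ₀, hζA⟩ hζ z₁ z₂ (HahnSeries.C t * z₃)
  have hK2 := hK1 e1 e2 (coeffMap_residue_A0_ne_zero K₀ A z₂ Y₂ hz₂' hne) e5 e3
  have hK3 := hK2 ((⟨_, h₁⟩ : FF M) / ⟨_, h₂⟩)
  have hK4 := hK3 e4
  obtain ⟨s, hs, hsd⟩ := hK4 hdiv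
  refine ⟨⟨coeffMap (algebraMap K₀ Qb) s, coeffMap_mem_bar K₀ M hs⟩, ?_⟩
  apply Subtype.ext
  rw [IntermediateField.coe_pow, IntermediateField.coe_div]
  show (coeffMap (algebraMap K₀ Qb) s) ^ p = coeffMap A.subtype Y₁ / coeffMap A.subtype Y₂
  rw [← map_pow, hsd, hW]

/-- `Rig` at a level with a good base coordinate. -/
theorem rig_of_goodCoord (M p : ℕ) [NeZero M] (hp : p.Prime) (hp2 : p ≠ 2) (xh : LaurentSeries ℤ)
    (β : ℤ) (n : ℕ) (hx : GM.GoodCoord M p xh β n) : Rig M p := by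
  classical
  intro A hA z hz
  obtain ⟨u, rfl, a, ha, hcong⟩ := hz
  have : NeZero p := ⟨hp.ne_zero⟩
  -- `a = b ^ p`
  obtain ⟨b, hb⟩ := IsAlgClosed.exists_pow_nat_eq a hp.pos
  have hb0 : b ≠ 0 := by
    rintro rfl
    rw [zero_pow hp.ne_zero] at hb
    exact ha hb.symm
  set B : FF M := algebraMap Qb (FF M) b with hB
  have hB0 : B ≠ 0 := by rw [hB, Ne, map_eq_zero]; exact hb0
  set f : FF M := B ^ p * ((u : (FF M)ˣ) : FF M) with hf
  have hf0 : f ≠ 0 := mul_ne_zero (pow_ne_zero p hB0) (Units.ne_zero _)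
  have hfcoe : (f : LaurentSeries Qb) = cst a * (((u : (FF M)ˣ) : FF M) : LaurentSeries Qb) := by
    rw [hf, IntermediateField.coe_mul, IntermediateField.coe_pow, hB, ← hb, cst, map_pow]
    rfl
  obtain ⟨Y₁, Y₂, Y₃, h₁, h₂, hne, hfY, hsub⟩ := CongOne.exists_ff f hf0 (by rw [hfcoe]; exact hcong)
  have hY2 : coeffMap A.subtype Y₂ ≠ 0 := coeffMap_subtype_ne_zero hne
  have hfdiv : f = (⟨_, h₁⟩ : FF M) / ⟨_, h₂⟩ := by
    apply Subtype.ext
    rw [IntermediateField.coe_div]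
    exact eq_div_of_mul_eq hY2 hfY
  have hdiv : ∀ P : Place Qb (FF M), (p : ℤ) ∣ P.ord ((⟨_, h₁⟩ : FF M) / ⟨_, h₂⟩) := by
    intro P
    rw [← hfdiv, hf, P.ord_mul (pow_ne_zero p hB0) (Units.ne_zero _)]
    refine dvd_add ?_ (u.2 P)
    rw [← zpow_natCast, P.ord_zpow]
    exact dvd_mul_right _ _
  obtain ⟨p₁, q₁, -, hf₁⟩ := S24.exists_phiF_div M ⟨_, h₁⟩
  obtain ⟨p₂, q₂, -, hf₂⟩ := S24.exists_phiF_div M ⟨_, h₂⟩
  obtain ⟨c₀, hc₀⟩ := IsAlgClosed.exists_pow_nat_eq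
    (coeffMap A.subtype Y₁ / coeffMap A.subtype Y₂).leadingCoeff hp.pos
  obtain ⟨ζ, hζ⟩ := exists_primitiveRoot_Qb p
  obtain ⟨K₀, hfin, hS⟩ : ∃ K₀ : IntermediateField ℚ Qb, FiniteDimensional ℚ K₀ ∧
      ∀ c ∈ p₁.coeffs ∪ q₁.coeffs ∪ p₂.coeffs ∪ q₂.coeffs ∪ {c₀} ∪ {ζ}, c ∈ K₀ :=
    ⟨IntermediateField.adjoin ℚ
      ((p₁.coeffs ∪ q₁.coeffs ∪ p₂.coeffs ∪ q₂.coeffs ∪ {c₀} ∪ {ζ} : Finset Qb) : Set Qb),
      IntermediateField.finiteDimensional_adjoin fun x _ =>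
        ((AlgebraicClosure.isAlgebraic ℚ).isAlgebraic x).isIntegral,
      fun c hc => IntermediateField.subset_adjoin _ _ (Finset.mem_coe.mpr hc)⟩
  have hnf : NumberField K₀ := ⟨⟩
  have hS' : ∀ c ∈ p₁.coeffs ∪ q₁.coeffs ∪ p₂.coeffs ∪ q₂.coeffs ∪ {c₀} ∪ {ζ},
      c ∈ Set.range (algebraMap K₀ Qb) := fun c hc => ⟨⟨c, hS c hc⟩, rfl⟩
  obtain ⟨u₁, hu₁, hu₁'⟩ := exists_model M K₀ _ p₁ q₁ hf₁
    (fun c hc => hS' c (by simp only [Finset.mem_union]; tauto))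
    (fun c hc => hS' c (by simp only [Finset.mem_union]; tauto))
  obtain ⟨u₂, hu₂, hu₂'⟩ := exists_model M K₀ _ p₂ q₂ hf₂
    (fun c hc => hS' c (by simp only [Finset.mem_union]; tauto))
    (fun c hc => hS' c (by simp only [Finset.mem_union]; tauto))
  obtain ⟨s, hs⟩ := rig_step M p hp hp2 xh β n hx hA Y₁ Y₂ Y₃ h₁ h₂ hne hsub hdiv K₀ u₁ u₂ hu₁ hu₂
    hu₁' hu₂' ⟨c₀, hS c₀ (by simp)⟩ hc₀ ⟨ζ, hS ζ (by simp)⟩
    (IsPrimitiveRoot.of_map_of_injective (f := algebraMap K₀ Qb) hζ (algebraMap K₀ Qb).injective)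
  rw [← hfdiv, hf] at hs
  rw [Kum.mk_eq_zero_iff]
  have hs0 : s ≠ 0 := by
    rintro rfl
    rw [zero_pow hp.ne_zero] at hs
    exact hf0 hs.symm
  refine ⟨Units.mk0 (s / B) (div_ne_zero hs0 hB0), Units.ext ?_⟩
  rw [Units.val_pow_eq_pow_val, Units.val_mk0, div_pow, hs, mul_div_cancel_left₀ _ (pow_ne_zero p hB0)]

/-- `DeepCl` is preserved by the pull-back to level `M q`. -/
theorem DeepCl.pullA {M q m : ℕ} [NeZero M] [NeZero q] {c : A} {z : Kum M m} (h : DeepCl A c z) :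
    DeepCl A c (pullA M q m z) := by
  obtain ⟨u, rfl, hu⟩ := h
  refine ⟨⟨alphaU M q u, alphaU_mem_Dm u.2⟩, (pullA_mk u).symm, ?_⟩
  simpa [coe_alphaU, coe_heckeAlphaBar] using hu

/-- **RIG.** -/
theorem rig (M p : ℕ) [NeZero M] (hp : p.Prime) (hp2 : p ≠ 2) (hpM : ¬ p ∣ M) : Rig M p := by
  by_cases hadm : Admissible p M
  · obtain ⟨xh, β, n, hx⟩ := GM.exists_goodCoord M p hp hpM hadm
    exact rig_of_goodCoord M p hp hp2 xh β n hx
  · unfold Admissible at hadm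
    rw [not_and_or] at hadm
    rcases hadm with h | h
    · push Not at h
      obtain ⟨rfl, h2⟩ := h
      have : NeZero (M * 2) := ⟨mul_ne_zero (NeZero.ne M) two_ne_zero⟩
      have hN' : ¬ 3 ∣ M * 2 := fun h =>
        hpM ((Nat.Coprime.dvd_mul_right (by norm_num : Nat.Coprime 3 2)).mp h)
      have hadm' : Admissible 3 (M * 2) := ⟨fun _ => dvd_mul_left 2 M, fun h => by omega⟩
      obtain ⟨xh, β, n, hx⟩ := GM.exists_goodCoord (M * 2) 3 hp hN' hadm'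
      intro A hA z hz
      exact pullA_two_three_injective M h2 z
        (rig_of_goodCoord (M * 2) 3 hp hp2 xh β n hx A hA _ hz.pullA)
    · push Not at h
      exact absurd h.1 hp2

end

end Fermat.Agent.S33
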